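import Fermat.Agent.A2.H672.RelLength

/-!
# A2 / node purity (helper672): the two length lemmas (additivity and `χ`)

For ideals of a commutative ring `R` and `π ∈ R`:

* `relLen_sup_span_eq` (additivity): if `A ≤ B` and `R ⧸ B` has no `π`-torsion then
  `ℓ((B + πR)/(A + πR)) = ℓ(B/(A + πB))`.
* `relLen_chi` (the `χ`-lemma, by the chain trick, no snake lemma): if `A ≤ X ≤ N`, `R ⧸ A` has no
  `π`-torsion and `ℓ(N/X) < ∞`, then `ℓ(N/(A + πN)) = ℓ(X/(A + πX))`.
-/

set_option autoImplicit false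

namespace Fermat.Agent.A2.H672

variable {R : Type*} [CommRing R]

theorem mem_sup_span_singleton {A : Ideal R} {π x : R} :
    x ∈ A ⊔ Ideal.span {π} ↔ ∃ a ∈ A, ∃ c : R, x = a + π * c := by
  rw [Submodule.mem_sup]
  constructor
  · rintro ⟨a, ha, y, hy, rfl⟩
    obtain ⟨c, rfl⟩ := Ideal.mem_span_singleton'.1 hy
    exact ⟨a, ha, c, by ring⟩
  · rintro ⟨a, ha, c, rfl⟩
    exact ⟨a, ha, π * c, Ideal.mul_mem_right _ _ (Ideal.mem_span_singleton_self π), rfl⟩

theorem mem_sup_span_singleton_mul {A B : Ideal R} {π x : R} :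
    x ∈ A ⊔ Ideal.span {π} * B ↔ ∃ a ∈ A, ∃ b ∈ B, x = a + π * b := by
  rw [Submodule.mem_sup]
  constructor
  · rintro ⟨a, ha, y, hy, rfl⟩
    obtain ⟨b, hb, rfl⟩ := Ideal.mem_span_singleton_mul.1 hy
    exact ⟨a, ha, b, hb, rfl⟩
  · rintro ⟨a, ha, b, hb, rfl⟩
    exact ⟨a, ha, π * b, Ideal.mem_span_singleton_mul.2 ⟨b, hb, rfl⟩, rfl⟩

theorem sup_span_singleton_mul_le {A B : Ideal R} (π : R) (hAB : A ≤ B) :
    A ⊔ Ideal.span {π} * B ≤ B :=
  sup_le hAB Ideal.mul_le_right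

/-- Additivity: `ℓ((B + πR)/(A + πR)) = ℓ(B/(A + πB))` when `R ⧸ B` has no `π`-torsion. -/
theorem relLen_sup_span_eq {A B : Ideal R} (π : R) (hAB : A ≤ B)
    (hsat : ∀ x : R, π * x ∈ B → x ∈ B) :
    relLen (A ⊔ Ideal.span {π}) (B ⊔ Ideal.span {π}) = relLen (A ⊔ Ideal.span {π} * B) B := by
  symm
  refine relLen_eq_of_map LinearMap.id ?_ ?_ ?_
  · intro b hb
    exact Ideal.mem_sup_left hb
  · intro b hb
    simp only [LinearMap.id_coe, id_eq]
    rw [mem_sup_span_singleton, mem_sup_span_singleton_mul]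
    constructor
    · rintro ⟨a, ha, c, rfl⟩
      refine ⟨a, ha, c, hsat c ?_, rfl⟩
      have : π * c = a + π * c - a := by ring
      rw [this]
      exact B.sub_mem hb (hAB ha)
    · rintro ⟨a, ha, c, -, rfl⟩
      exact ⟨a, ha, c, rfl⟩
  · intro b' hb'
    obtain ⟨b, hb, c, rfl⟩ := mem_sup_span_singleton.1 hb'
    refine ⟨b, hb, ?_⟩
    simp only [LinearMap.id_coe, id_eq, add_sub_cancel_left]
    exact Ideal.mem_sup_right (Ideal.mul_mem_right _ _ (Ideal.mem_span_singleton_self π))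

/-- Multiplication by `π` identifies `N/X` with `(A + πN)/(A + πX)` when `R ⧸ A` has no
`π`-torsion and `A ≤ X`. -/
theorem relLen_mul_eq {A X N : Ideal R} (π : R) (hAX : A ≤ X)
    (hsat : ∀ x : R, π * x ∈ A → x ∈ A) :
    relLen X N = relLen (A ⊔ Ideal.span {π} * X) (A ⊔ Ideal.span {π} * N) := by
  refine relLen_eq_of_map (LinearMap.mulLeft R π) ?_ ?_ ?_
  · intro b hb
    exact mem_sup_span_singleton_mul.2 ⟨0, A.zero_mem, b, hb, by simp⟩
  · intro b _
    simp only [LinearMap.mulLeft_apply]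
    rw [mem_sup_span_singleton_mul]
    constructor
    · rintro ⟨a, ha, x, hx, h⟩
      have h1 : π * (b - x) ∈ A := by
        have : π * (b - x) = a := by rw [mul_sub, h]; ring
        rw [this]
        exact ha
      have h2 := hAX (hsat _ h1)
      have : b = (b - x) + x := by ring
      rw [this]
      exact X.add_mem h2 hx
    · intro hb
      exact ⟨0, A.zero_mem, b, hb, by simp⟩
  · intro b' hb'
    obtain ⟨a, ha, n, hn, rfl⟩ := mem_sup_span_singleton_mul.1 hb'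
    refine ⟨n, hn, ?_⟩
    simp only [LinearMap.mulLeft_apply, add_sub_cancel_right]
    exact Ideal.mem_sup_left ha

/-- The `χ`-lemma: `ℓ(N/(A + πN)) = ℓ(X/(A + πX))` for `A ≤ X ≤ N` with `ℓ(N/X) < ∞` and
`R ⧸ A` without `π`-torsion. -/
theorem relLen_chi {A X N : Ideal R} (π : R) (hAX : A ≤ X) (hXN : X ≤ N)
    (hsat : ∀ x : R, π * x ∈ A → x ∈ A) (hfin : relLen X N ≠ ⊤) :
    relLen (A ⊔ Ideal.span {π} * N) N = relLen (A ⊔ Ideal.span {π} * X) X := by
  have h1 : relLen (A ⊔ Ideal.span {π} * X) N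
      = relLen (A ⊔ Ideal.span {π} * X) X + relLen X N :=
    relLen_add (sup_span_singleton_mul_le π hAX) hXN
  have h2 : relLen (A ⊔ Ideal.span {π} * X) N
      = relLen (A ⊔ Ideal.span {π} * X) (A ⊔ Ideal.span {π} * N)
        + relLen (A ⊔ Ideal.span {π} * N) N :=
    relLen_add (sup_le_sup_left (Ideal.mul_mono_right hXN) A)
      (sup_span_singleton_mul_le π (hAX.trans hXN))
  rw [← relLen_mul_eq π hAX hsat, h1, add_comm] at h2
  exact ((WithTop.add_left_inj hfin).1 h2).symm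

end Fermat.Agent.A2.H672
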