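import Mathlib.RingTheory.Length
import Mathlib.RingTheory.Ideal.Operations

/-!
# A2 / node purity (helper672): relative lengths of ideals

`relLen A B` is the length of the `R`-module `B ⧸ (A ∩ B)` for two ideals (submodules) `A, B`.
We prove additivity along chains (`relLen_add`), invariance under a linear map which induces a
bijection of the subquotients (`relLen_eq_of_map`) and the inequality for surjections
(`relLen_le_of_map`).  Everything is elementwise, so that no exact sequences have to be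
manipulated by the user.
-/

set_option autoImplicit false

namespace Fermat.Agent.A2.H672

variable {R : Type*} [CommRing R]
variable {M : Type*} [AddCommGroup M] [Module R M]
variable {M' : Type*} [AddCommGroup M'] [Module R M']

/-- The length of the subquotient `B ⧸ (A ∩ B)`. -/
noncomputable def relLen (A B : Submodule R M) : ℕ∞ :=
  Module.length R (↥B ⧸ A.submoduleOf B)

theorem relLen_self (A : Submodule R M) : relLen A A = 0 := by
  unfold relLen
  rw [Module.length_eq_zero_iff, Submodule.Quotient.subsingleton_iff,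
    Submodule.submoduleOf_self]

theorem relLen_eq_zero_of_le {A B : Submodule R M} (h : B ≤ A) : relLen A B = 0 := by
  unfold relLen
  rw [Module.length_eq_zero_iff, Submodule.Quotient.subsingleton_iff,
    Submodule.submoduleOf_eq_top]
  exact h

theorem relLen_eq_zero_iff {A B : Submodule R M} : relLen A B = 0 ↔ B ≤ A := by
  unfold relLen
  rw [Module.length_eq_zero_iff, Submodule.Quotient.subsingleton_iff,
    Submodule.submoduleOf_eq_top]

/-- The comparison map of subquotients induced by a linear map. -/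
noncomputable def subquotMap (f : M →ₗ[R] M') {A B : Submodule R M} {A' B' : Submodule R M'}
    (h1 : ∀ b ∈ B, f b ∈ B') (h2 : ∀ b ∈ B, b ∈ A → f b ∈ A') :
    (↥B ⧸ A.submoduleOf B) →ₗ[R] (↥B' ⧸ A'.submoduleOf B') :=
  Submodule.mapQ (A.submoduleOf B) (A'.submoduleOf B') (f.restrict h1) (by
    rintro ⟨x, hx⟩ hxA
    exact h2 x hx hxA)

theorem subquotMap_mk (f : M →ₗ[R] M') {A B : Submodule R M} {A' B' : Submodule R M'}
    (h1 : ∀ b ∈ B, f b ∈ B') (h2 : ∀ b ∈ B, b ∈ A → f b ∈ A') (x : B) :
    subquotMap f h1 h2 (Submodule.Quotient.mk x) =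
      Submodule.Quotient.mk ⟨f x, h1 x x.2⟩ := rfl

theorem subquotMap_surjective (f : M →ₗ[R] M') {A B : Submodule R M} {A' B' : Submodule R M'}
    (h1 : ∀ b ∈ B, f b ∈ B') (h2 : ∀ b ∈ B, b ∈ A → f b ∈ A')
    (h3 : ∀ b' ∈ B', ∃ b ∈ B, b' - f b ∈ A') :
    Function.Surjective (subquotMap f h1 h2) := by
  intro y
  obtain ⟨⟨y, hy⟩, rfl⟩ := Submodule.Quotient.mk_surjective _ y
  obtain ⟨b, hb, hby⟩ := h3 y hy
  refine ⟨Submodule.Quotient.mk ⟨b, hb⟩, ?_⟩
  rw [subquotMap_mk, Submodule.Quotient.eq]
  show (f b - y) ∈ A'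
  have : f b - y = -(y - f b) := by abel
  rw [this]
  exact A'.neg_mem hby

theorem subquotMap_injective (f : M →ₗ[R] M') {A B : Submodule R M} {A' B' : Submodule R M'}
    (h1 : ∀ b ∈ B, f b ∈ B') (h2 : ∀ b ∈ B, b ∈ A → f b ∈ A')
    (h4 : ∀ b ∈ B, f b ∈ A' → b ∈ A) :
    Function.Injective (subquotMap f h1 h2) := by
  rw [← LinearMap.ker_eq_bot, LinearMap.ker_eq_bot']
  intro x hx
  obtain ⟨⟨x, hxB⟩, rfl⟩ := Submodule.Quotient.mk_surjective _ x
  rw [subquotMap_mk, Submodule.Quotient.mk_eq_zero] at hx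
  rw [Submodule.Quotient.mk_eq_zero]
  exact h4 x hxB hx

/-- A linear map inducing a surjection of subquotients decreases the relative length. -/
theorem relLen_le_of_map (f : M →ₗ[R] M') {A B : Submodule R M} {A' B' : Submodule R M'}
    (h1 : ∀ b ∈ B, f b ∈ B') (h2 : ∀ b ∈ B, b ∈ A → f b ∈ A')
    (h3 : ∀ b' ∈ B', ∃ b ∈ B, b' - f b ∈ A') : relLen A' B' ≤ relLen A B :=
  Module.length_le_of_surjective _ (subquotMap_surjective f h1 h2 h3)

/-- A linear map inducing a bijection of subquotients preserves the relative length. -/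
theorem relLen_eq_of_map (f : M →ₗ[R] M') {A B : Submodule R M} {A' B' : Submodule R M'}
    (h1 : ∀ b ∈ B, f b ∈ B') (h2 : ∀ b ∈ B, f b ∈ A' ↔ b ∈ A)
    (h3 : ∀ b' ∈ B', ∃ b ∈ B, b' - f b ∈ A') : relLen A B = relLen A' B' :=
  (LinearEquiv.ofBijective (subquotMap f h1 fun b hb hbA => (h2 b hb).2 hbA)
    ⟨subquotMap_injective f h1 _ fun b hb h => (h2 b hb).1 h,
      subquotMap_surjective f h1 _ h3⟩).length_eq

/-- Monotonicity in the big ideal. -/
theorem relLen_mono_right (A : Submodule R M) {B C : Submodule R M} (h : B ≤ C) :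
    relLen A B ≤ relLen A C :=
  Module.length_le_of_injective (subquotMap LinearMap.id (fun _ hb => h hb) fun _ _ hb => hb)
    (subquotMap_injective _ _ _ fun _ _ hb => hb)

/-- Antitonicity in the small ideal. -/
theorem relLen_anti_left {A A' : Submodule R M} (B : Submodule R M) (h : A ≤ A') :
    relLen A' B ≤ relLen A B :=
  relLen_le_of_map LinearMap.id (fun _ hb => hb) (fun _ _ hb => h hb)
    fun b hb => ⟨b, hb, by simp⟩

/-- Additivity of the relative length along a chain `A ≤ B ≤ C`. -/
theorem relLen_add {A B C : Submodule R M} (hAB : A ≤ B) (hBC : B ≤ C) :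
    relLen A C = relLen A B + relLen B C := by
  unfold relLen
  refine Module.length_eq_add_of_exact
    (subquotMap LinearMap.id (fun b hb => hBC hb) fun _ _ hb => hb)
    (subquotMap LinearMap.id (fun _ hb => hb) fun _ _ hb => hAB hb)
    (subquotMap_injective _ _ _ fun _ _ hb => hb)
    (subquotMap_surjective _ _ _ fun b hb => ⟨b, hb, by simp⟩) ?_
  intro x
  obtain ⟨⟨x, hxC⟩, rfl⟩ := Submodule.Quotient.mk_surjective _ x
  rw [subquotMap_mk, Submodule.Quotient.mk_eq_zero]
  constructor
  · intro hx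
    exact ⟨Submodule.Quotient.mk ⟨x, hx⟩, rfl⟩
  · rintro ⟨y, hy⟩
    obtain ⟨⟨y, hyB⟩, rfl⟩ := Submodule.Quotient.mk_surjective _ y
    rw [subquotMap_mk, Submodule.Quotient.eq] at hy
    have h1 : y - x ∈ A := hy
    show x ∈ B
    have : x = y - (y - x) := by abel
    rw [this]
    exact B.sub_mem hyB (hAB h1)

/-- The relative length of `⊤` over `A` is the length of the quotient. -/
theorem relLen_top (A : Submodule R M) : relLen A ⊤ = Module.length R (M ⧸ A) := by
  unfold relLen
  refine LinearEquiv.length_eq (LinearEquiv.ofBijective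
    (Submodule.mapQ (A.submoduleOf ⊤) A (⊤ : Submodule R M).subtype (fun x hx => hx)) ⟨?_, ?_⟩)
  · rw [← LinearMap.ker_eq_bot, LinearMap.ker_eq_bot']
    intro x hx
    obtain ⟨⟨x, hxB⟩, rfl⟩ := Submodule.Quotient.mk_surjective _ x
    have hx' : (Submodule.Quotient.mk x : M ⧸ A) = 0 := hx
    rw [Submodule.Quotient.mk_eq_zero] at hx'
    rw [Submodule.Quotient.mk_eq_zero]
    exact hx'
  · intro y
    obtain ⟨y, rfl⟩ := Submodule.Quotient.mk_surjective _ y
    exact ⟨Submodule.Quotient.mk ⟨y, trivial⟩, rfl⟩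

end Fermat.Agent.A2.H672
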