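import Mathlib.RingTheory.HopkinsLevitzki
import Mathlib.RingTheory.Ideal.Quotient.Noetherian
import Mathlib.RingTheory.LocalRing.MaximalIdeal.Basic
import Fermat.Agent.A2.H672.RelLength

/-!
# A2 / node purity (helper672): finiteness of lengths

* `length_quotient_ne_top_of_pow_le` : in a noetherian local ring, `𝔪 ^ k ≤ J` implies that `R ⧸ J`
  has finite length.
* `relLen_ne_top_of_pow_mul_le` : if `X ≤ N` are ideals with `𝔪 ^ k * N ≤ X`, then `N / X` has
  finite length.
-/

set_option autoImplicit false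

namespace Fermat.Agent.A2.H672

open IsLocalRing

variable {R : Type*} [CommRing R]

section local_

variable [IsNoetherianRing R] [IsLocalRing R]

theorem length_quotient_ne_top_of_pow_le (J : Ideal R) (k : ℕ) (hJ : maximalIdeal R ^ k ≤ J) :
    Module.length R (R ⧸ J) ≠ ⊤ := by
  have hdim : Ring.KrullDimLE 0 (R ⧸ J) := by
    rw [Ring.krullDimLE_zero_iff]
    intro Q hQ
    have hP : (Q.comap (Ideal.Quotient.mk J)).IsPrime := Ideal.comap_isPrime _ _
    have hJP : J ≤ Q.comap (Ideal.Quotient.mk J) := by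
      intro x hx
      rw [Ideal.mem_comap, Ideal.Quotient.eq_zero_iff_mem.2 hx]
      exact Q.zero_mem
    have hm : maximalIdeal R ≤ Q.comap (Ideal.Quotient.mk J) :=
      hP.le_of_pow_le (hJ.trans hJP)
    have hmax : (Q.comap (Ideal.Quotient.mk J)).IsMaximal := by
      have := (IsLocalRing.maximalIdeal.isMaximal R).eq_of_le hP.ne_top hm
      rw [← this]
      exact IsLocalRing.maximalIdeal.isMaximal R
    have := Ideal.map_eq_top_or_isMaximal_of_surjective (Ideal.Quotient.mk J)
      Ideal.Quotient.mk_surjective hmax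
    rw [Ideal.map_comap_of_surjective _ Ideal.Quotient.mk_surjective] at this
    rcases this with h | h
    · exact absurd h hQ.ne_top
    · exact h
  have : IsArtinianRing (R ⧸ J) := isArtinianRing_iff_krullDimLE_zero.2 hdim
  rw [Module.length_eq_of_surjective (S := R) (R := R ⧸ J) (M := R ⧸ J)
    Ideal.Quotient.mk_surjective]
  exact Module.length_ne_top

theorem relLen_top_ne_top_of_pow_le (J : Ideal R) (k : ℕ) (hJ : maximalIdeal R ^ k ≤ J) :
    relLen J ⊤ ≠ ⊤ := by
  rw [relLen_top]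
  exact length_quotient_ne_top_of_pow_le J k hJ

end local_

/-- One step of the generator filtration. -/
theorem relLen_sup_span_singleton_le (J Y : Ideal R) (f : R) (hJ : ∀ a ∈ J, a * f ∈ Y) :
    relLen Y (Y ⊔ Ideal.span {f}) ≤ relLen J ⊤ := by
  refine relLen_le_of_map (LinearMap.mulRight R f) ?_ ?_ ?_
  · intro b _
    exact Ideal.mem_sup_right (Ideal.mul_mem_left _ _ (Ideal.mem_span_singleton_self f))
  · intro b _ hb
    exact hJ b hb
  · intro b' hb'
    obtain ⟨y, hy, c, hc, rfl⟩ := Submodule.mem_sup.1 hb'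
    obtain ⟨d, rfl⟩ := Ideal.mem_span_singleton'.1 hc
    refine ⟨d, trivial, ?_⟩
    simpa using hy

theorem relLen_sup_span_finset_ne_top (J X : Ideal R) (hJfin : relLen J ⊤ ≠ ⊤) (s : Finset R)
    (hs : ∀ f ∈ s, ∀ a ∈ J, a * f ∈ X) :
    relLen X (X ⊔ Ideal.span (s : Set R)) ≠ ⊤ := by
  classical
  induction s using Finset.induction_on with
  | empty =>
    simp only [Finset.coe_empty, Ideal.span_empty, sup_bot_eq]
    rw [relLen_self]
    exact ENat.zero_ne_top
  | insert f s hf ih =>
    have ih' := ih fun g hg => hs g (Finset.mem_insert_of_mem hg)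
    have hstep : relLen (X ⊔ Ideal.span (s : Set R))
        (X ⊔ Ideal.span (s : Set R) ⊔ Ideal.span {f}) ≤ relLen J ⊤ :=
      relLen_sup_span_singleton_le J _ f fun a ha =>
        Ideal.mem_sup_left (hs f (Finset.mem_insert_self f s) a ha)
    have heq : X ⊔ Ideal.span ((insert f s : Finset R) : Set R)
        = X ⊔ Ideal.span (s : Set R) ⊔ Ideal.span {f} := by
      rw [Finset.coe_insert, Ideal.span_insert, sup_assoc, sup_comm (Ideal.span {f})]
    rw [heq, relLen_add (le_sup_left : X ≤ X ⊔ Ideal.span (s : Set R)) le_sup_left]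
    exact WithTop.add_ne_top.2 ⟨ih', ne_top_of_le_ne_top hJfin hstep⟩

theorem relLen_ne_top_of_mul_le [IsNoetherianRing R] (J X N : Ideal R) (hJfin : relLen J ⊤ ≠ ⊤)
    (hXN : X ≤ N) (hJ : ∀ a ∈ J, ∀ f ∈ N, a * f ∈ X) : relLen X N ≠ ⊤ := by
  classical
  obtain ⟨s, hs⟩ := (isNoetherianRing_iff_ideal_fg R).1 inferInstance N
  have h := relLen_sup_span_finset_ne_top J X hJfin s fun f hf a ha =>
    hJ a ha f (hs ▸ Ideal.subset_span hf)
  rwa [hs, sup_eq_right.2 hXN] at h

theorem relLen_ne_top_of_pow_mul_le [IsNoetherianRing R] [IsLocalRing R] (X N : Ideal R) (k : ℕ)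
    (hXN : X ≤ N) (hk : ∀ a ∈ maximalIdeal R ^ k, ∀ f ∈ N, a * f ∈ X) : relLen X N ≠ ⊤ :=
  relLen_ne_top_of_mul_le _ X N (relLen_top_ne_top_of_pow_le _ k le_rfl) hXN hk

end Fermat.Agent.A2.H672
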