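import Mathlib.Algebra.Ring.GeomSum
import Mathlib.RingTheory.Ideal.Operations
import Fermat.Agent.A2.H969.PowRoot

/-!
# A2 / node purity (helper672): a generic `m`-th root of `u` up to a unit at finitely many primes

`R` an integrally closed domain, `u ≠ 0`, `m > 0`.  If at each prime `P` of a finite set of
pairwise incomparable primes there are `z_P, σ_P` with `z_P ^ m = σ_P * u` and `σ_P ∉ P`
(i.e. `u` is an `m`-th power up to a unit of `R_P`), then there are `z, r` with `z ^ m = r * u`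
and `r` outside all these primes (`exists_generic_root`).  The proof is a prime avoidance
induction; the combination step `exists_combine` uses the ideals `powRootIdeal` of helper969.
-/

set_option autoImplicit false

namespace Fermat.Agent.A2.H672

open Finset

variable {R : Type*} [CommRing R] [IsDomain R] [IsIntegrallyClosed R]

theorem geomSum_pow_dvd {u : R} (hu : u ≠ 0) {m : ℕ} (hm : 0 < m) {x y : R} (hx : u ∣ x ^ m)
    (hy : u ∣ y ^ m) (n : ℕ) :
    u ^ (n - 1) ∣ (∑ i ∈ range n, x ^ i * y ^ (n - 1 - i)) ^ m := by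
  have key : ∀ i ∈ range n, x ^ i * y ^ (n - 1 - i) ∈ H969.powRootIdeal u hu m hm (n - 1) := by
    intro i hi
    have hi' : i + (n - 1 - i) = n - 1 := by
      have := mem_range.1 hi
      omega
    rw [H969.mem_powRootIdeal, mul_pow, ← pow_mul, ← pow_mul, mul_comm i m,
      mul_comm (n - 1 - i) m, pow_mul, pow_mul]
    conv_lhs => rw [← hi', pow_add]
    exact mul_dvd_mul (pow_dvd_pow_of_dvd hx i) (pow_dvd_pow_of_dvd hy _)
  exact H969.mem_powRootIdeal.1 (Ideal.sum_mem _ key)

/-- If `u ∣ x ^ m` and `u ^ (m - 1) ∣ S ^ m` then `u ∣ x * S`. -/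
theorem dvd_mul_of_dvd_pow {u : R} (hu : u ≠ 0) {m : ℕ} (hm : 0 < m) {x S : R} (hx : u ∣ x ^ m)
    (hS : u ^ (m - 1) ∣ S ^ m) : u ∣ x * S := by
  refine H969.dvd_of_pow_dvd_pow hu hm ?_
  have h : u ^ m = u * u ^ (m - 1) := by
    rw [← pow_succ', Nat.sub_add_cancel hm]
  rw [mul_pow, h]
  exact mul_dvd_mul hx hS

/-- The combination step of the prime avoidance induction. -/
theorem exists_combine {u : R} (hu : u ≠ 0) {m : ℕ} (hm : 0 < m) {z r z' σ : R}
    (hz : z ^ m = r * u) (hz' : z' ^ m = σ * u) (b : R) :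
    ∃ r' t' t c : R, (z + b * z') ^ m = r' * u ∧ r' = r + b * t' ∧ r' = b ^ m * σ + t ∧
      t ^ m = r * c := by
  have hzI : u ∣ z ^ m := ⟨r, by rw [hz, mul_comm]⟩
  have hz'I : u ∣ z' ^ m := ⟨σ, by rw [hz', mul_comm]⟩
  have hbz'I : u ∣ (b * z') ^ m := by
    rw [mul_pow]
    exact hz'I.mul_left _
  have hwI : u ∣ (z + b * z') ^ m := H969.pow_add_dvd_of_dvd_pow hu hm hzI hbz'I
  -- first comparison
  have hS₁ := geomSum_pow_dvd hu hm hwI hzI m
  have h1 := (Commute.all (z + b * z') z).geom_sum₂_mul m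
  obtain ⟨t', ht'⟩ := dvd_mul_of_dvd_pow hu hm hz'I hS₁
  have hw1 : (z + b * z') ^ m = (r + b * t') * u := by
    have : (z + b * z') ^ m = z ^ m + b * (z' * ∑ i ∈ range m, (z + b * z') ^ i * z ^ (m - 1 - i)) := by
      rw [← sub_eq_iff_eq_add', ← h1]
      ring
    rw [this, ht', hz]
    ring
  -- second comparison
  have hS₂ := geomSum_pow_dvd hu hm hwI hbz'I m
  have h2 := (Commute.all (z + b * z') (b * z')).geom_sum₂_mul m
  obtain ⟨t, ht⟩ := dvd_mul_of_dvd_pow hu hm hzI hS₂
  obtain ⟨c, hc⟩ := hS₂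
  have hw2 : (z + b * z') ^ m = (b ^ m * σ + t) * u := by
    have : (z + b * z') ^ m
        = (b * z') ^ m + z * ∑ i ∈ range m, (z + b * z') ^ i * (b * z') ^ (m - 1 - i) := by
      rw [← sub_eq_iff_eq_add', ← h2]
      ring
    rw [this, ht, mul_pow, hz']
    ring
  have htm : t ^ m = r * c := by
    have h3 : (u * t) ^ m = u ^ m * (r * c) := by
      rw [← ht, mul_pow, hz, hc]
      have h : u ^ m = u * u ^ (m - 1) := by
        rw [← pow_succ', Nat.sub_add_cancel hm]
      rw [h]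
      ring
    rw [mul_pow] at h3
    exact mul_left_cancel₀ (pow_ne_zero m hu) h3
  refine ⟨r + b * t', t', t, c, hw1, rfl, ?_, htm⟩
  have := hw1.symm.trans hw2
  exact mul_right_cancel₀ hu this

/-- Prime avoidance induction: a generic `m`-th root of `u` at finitely many primes. -/
theorem exists_generic_root_finset {u : R} (hu : u ≠ 0) {m : ℕ} (hm : 0 < m)
    (s : Finset (Ideal R)) (hprime : ∀ P ∈ s, P.IsPrime)
    (hinc : ∀ P ∈ s, ∀ Q ∈ s, Q ≤ P → Q = P)
    (hloc : ∀ P ∈ s, ∃ z σ : R, σ ∉ P ∧ z ^ m = σ * u) :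
    ∃ z r : R, z ^ m = r * u ∧ r ≠ 0 ∧ ∀ P ∈ s, r ∉ P := by
  classical
  induction s using Finset.induction_on with
  | empty =>
    refine ⟨u, u ^ (m - 1), ?_, pow_ne_zero _ hu, by simp⟩
    rw [← pow_succ, Nat.sub_add_cancel hm]
  | insert P s hPs ih =>
    obtain ⟨z, r, hz, hr0, hr⟩ := ih (fun Q hQ => hprime Q (mem_insert_of_mem hQ))
      (fun Q hQ Q' hQ' => hinc Q (mem_insert_of_mem hQ) Q' (mem_insert_of_mem hQ'))
      (fun Q hQ => hloc Q (mem_insert_of_mem hQ))
    have hP : P.IsPrime := hprime P (mem_insert_self P s)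
    by_cases hrP : r ∈ P
    · obtain ⟨z', σ, hσ, hz'⟩ := hloc P (mem_insert_self P s)
      -- an element of all `Q ∈ s` outside `P`
      have hex : ∀ Q : Ideal R, ∃ b : R, Q ∈ s → b ∈ Q ∧ b ∉ P := by
        intro Q
        by_cases hQ : Q ∈ s
        · have hne : ¬ Q ≤ P := by
            intro hle
            have := hinc P (mem_insert_self P s) Q (mem_insert_of_mem hQ) hle
            exact hPs (this ▸ hQ)
          obtain ⟨b, hbQ, hbP⟩ := SetLike.not_le_iff_exists.1 hne
          exact ⟨b, fun _ => ⟨hbQ, hbP⟩⟩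
        · exact ⟨0, fun h => absurd h hQ⟩
      choose bf hbf using hex
      set b := ∏ Q ∈ s, bf Q with hb
      have hbP : b ∉ P := by
        rw [hb, Ideal.IsPrime.prod_mem_iff]
        rintro ⟨Q, hQ, hQP⟩
        exact (hbf Q hQ).2 hQP
      have hbQ : ∀ Q ∈ s, b ∈ Q := by
        intro Q hQ
        obtain ⟨d, hd⟩ := Finset.dvd_prod_of_mem bf hQ
        rw [hb, hd]
        exact Ideal.mul_mem_right _ _ (hbf Q hQ).1
      obtain ⟨r', t', t, c, hw, hr1, hr2, htm⟩ := exists_combine hu hm hz hz' b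
      have hr'P : r' ∉ P := by
        intro h
        have htP : t ∈ P := hP.mem_of_pow_mem m (by rw [htm]; exact Ideal.mul_mem_right _ _ hrP)
        have : b ^ m * σ ∈ P := by
          have h' : b ^ m * σ = r' - t := by rw [hr2]; ring
          rw [h']
          exact P.sub_mem h htP
        rcases hP.mem_or_mem this with h1 | h1
        · exact hbP (hP.mem_of_pow_mem m h1)
        · exact hσ h1
      refine ⟨z + b * z', r', hw, ?_, ?_⟩
      · rintro rfl
        exact hr'P P.zero_mem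
      · intro Q hQ
        rcases mem_insert.1 hQ with rfl | hQ
        · exact hr'P
        · intro h
          apply hr Q hQ
          have h' : r = r' - b * t' := by rw [hr1]; ring
          rw [h']
          exact Q.sub_mem h (Ideal.mul_mem_right _ _ (hbQ Q hQ))
    · refine ⟨z, r, hz, hr0, ?_⟩
      intro Q hQ
      rcases mem_insert.1 hQ with rfl | hQ
      · exact hrP
      · exact hr Q hQ

/-- Set version of `exists_generic_root_finset`. -/
theorem exists_generic_root {u : R} (hu : u ≠ 0) {m : ℕ} (hm : 0 < m)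
    (F : Set (Ideal R)) (hF : F.Finite) (hprime : ∀ P ∈ F, P.IsPrime)
    (hinc : ∀ P ∈ F, ∀ Q ∈ F, Q ≤ P → Q = P)
    (hloc : ∀ P ∈ F, ∃ z σ : R, σ ∉ P ∧ z ^ m = σ * u) :
    ∃ z r : R, z ^ m = r * u ∧ r ≠ 0 ∧ ∀ P ∈ F, r ∉ P := by
  obtain ⟨z, r, h1, h2, h3⟩ := exists_generic_root_finset hu hm hF.toFinset
    (fun P hP => hprime P (hF.mem_toFinset.1 hP))
    (fun P hP Q hQ => hinc P (hF.mem_toFinset.1 hP) Q (hF.mem_toFinset.1 hQ))
    (fun P hP => hloc P (hF.mem_toFinset.1 hP))
  exact ⟨z, r, h1, h2, fun P hP => h3 P (hF.mem_toFinset.2 hP)⟩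

end Fermat.Agent.A2.H672
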