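import Mathlib.RingTheory.Ideal.KrullsHeightTheorem
import Mathlib.RingTheory.Ideal.MinimalPrime.Noetherian
import Mathlib.RingTheory.LocalRing.MaximalIdeal.Basic

/-!
# A2 / node purity (helper672): the primes containing `u`

`R` a noetherian local ring, `u, π ∈ R` such that `(u, π)` is primary to the maximal ideal
(`𝔪 ^ k ≤ (u, π)`).  Then every prime containing `u` and `π` is `𝔪` (`eq_maximalIdeal_of_mem`),
every prime `P ∋ u` with `π ∉ P` is minimal over `(u)` (`eq_of_le_of_mem`, Krull's principal ideal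
theorem in `R ⧸ Q`), and there are only finitely many such primes (`finite_horizontalPrimes`).
-/

set_option autoImplicit false
set_option linter.unusedSectionVars false
set_option linter.style.haveILetI false

namespace Fermat.Agent.A2.H672

open IsLocalRing

variable {R : Type*} [CommRing R] [IsNoetherianRing R] [IsLocalRing R]

/-- The "horizontal" primes of `u`: primes containing `u` but not `π`. -/
def horizontalPrimes (u π : R) : Set (Ideal R) := {P | P.IsPrime ∧ u ∈ P ∧ π ∉ P}

theorem maximalIdeal_le_of_mem {u π : R} {k : ℕ}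
    (hfin : maximalIdeal R ^ k ≤ Ideal.span {u, π}) {P : Ideal R} (hP : P.IsPrime)
    (hu : u ∈ P) (hπ : π ∈ P) : maximalIdeal R ≤ P := by
  refine hP.le_of_pow_le (hfin.trans ?_)
  rw [Ideal.span_le]
  rintro x (rfl | rfl)
  · exact hu
  · exact hπ

theorem eq_maximalIdeal_of_mem {u π : R} {k : ℕ}
    (hfin : maximalIdeal R ^ k ≤ Ideal.span {u, π}) {P : Ideal R} (hP : P.IsPrime)
    (hu : u ∈ P) (hπ : π ∈ P) : P = maximalIdeal R :=
  ((IsLocalRing.maximalIdeal.isMaximal R).eq_of_le hP.ne_top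
    (maximalIdeal_le_of_mem hfin hP hu hπ)).symm

/-- A horizontal prime is minimal among the primes containing `u`. -/
theorem eq_of_le_of_mem {u π : R} {k : ℕ} (hπm : π ∈ maximalIdeal R)
    (hfin : maximalIdeal R ^ k ≤ Ideal.span {u, π}) {P Q : Ideal R} (hP : P.IsPrime)
    (hQ : Q.IsPrime) (hQP : Q ≤ P) (hu : u ∈ Q) (hπ : π ∉ P) : Q = P := by
  refine le_antisymm hQP ?_
  let mk := Ideal.Quotient.mk Q
  have hsurj : Function.Surjective mk := Ideal.Quotient.mk_surjective
  have hker : RingHom.ker mk = Q := Ideal.mk_ker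
  haveI : IsDomain (R ⧸ Q) := Ideal.Quotient.isDomain Q
  have hPm : P ≤ maximalIdeal R := IsLocalRing.le_maximalIdeal hP.ne_top
  have hn : ((maximalIdeal R).map mk).IsPrime :=
    Ideal.map_isPrime_of_surjective hsurj (by rw [hker]; exact hQP.trans hPm)
  have hPbar : (P.map mk).IsPrime :=
    Ideal.map_isPrime_of_surjective hsurj (by rw [hker]; exact hQP)
  have hmin : (maximalIdeal R).map mk ∈ (Ideal.span {mk π}).minimalPrimes := by
    refine ⟨⟨hn, ?_⟩, ?_⟩
    · rw [Ideal.span_singleton_le_iff_mem]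
      exact Ideal.mem_map_of_mem _ hπm
    · rintro q ⟨hq, hπq⟩ -
      rw [Ideal.span_singleton_le_iff_mem] at hπq
      have hq' : (q.comap mk).IsPrime := Ideal.comap_isPrime _ _
      have h1 : maximalIdeal R ≤ q.comap mk := by
        refine maximalIdeal_le_of_mem hfin hq' ?_ hπq
        rw [Ideal.mem_comap, Ideal.Quotient.eq_zero_iff_mem.2 hu]
        exact q.zero_mem
      calc (maximalIdeal R).map mk ≤ (q.comap mk).map mk := Ideal.map_mono h1
        _ = q := Ideal.map_comap_of_surjective _ hsurj _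
  have hht : ((maximalIdeal R).map mk).height ≤ 1 :=
    Ideal.height_le_one_of_isPrincipal_of_mem_minimalPrimes _ _ hmin
  have hπP : mk π ∉ P.map mk := by
    intro h
    have : π ∈ (P.map mk).comap mk := h
    rw [Ideal.comap_map_of_surjective _ hsurj, ← RingHom.ker_eq_comap_bot, hker,
      sup_eq_left.2 hQP] at this
    exact hπ this
  have hlt : P.map mk < (maximalIdeal R).map mk := by
    refine lt_of_le_of_ne (Ideal.map_mono hPm) ?_
    intro h
    exact hπP (h ▸ Ideal.mem_map_of_mem _ hπm)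
  have h0 : (P.map mk).height = 0 := by
    have := Ideal.height_strict_mono_of_isPrime_of_isPrime hlt
    have h2 := lt_of_lt_of_le this hht
    exact Order.lt_one_iff.1 h2
  rw [Ideal.height_eq_zero_iff_eq_bot] at h0
  intro x hx
  have : mk x ∈ P.map mk := Ideal.mem_map_of_mem _ hx
  rw [h0, Ideal.mem_bot] at this
  exact Ideal.Quotient.eq_zero_iff_mem.1 this

theorem horizontalPrimes_subset_minimalPrimes {u π : R} {k : ℕ} (hπm : π ∈ maximalIdeal R)
    (hfin : maximalIdeal R ^ k ≤ Ideal.span {u, π}) :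
    horizontalPrimes u π ⊆ (Ideal.span {u}).minimalPrimes := by
  rintro P ⟨hP, hu, hπ⟩
  refine ⟨⟨hP, (Ideal.span_singleton_le_iff_mem _).2 hu⟩, ?_⟩
  rintro Q ⟨hQ, hQu⟩ hQP
  exact (eq_of_le_of_mem hπm hfin hP hQ hQP ((Ideal.span_singleton_le_iff_mem _).1 hQu) hπ).ge

theorem finite_horizontalPrimes {u π : R} {k : ℕ} (hπm : π ∈ maximalIdeal R)
    (hfin : maximalIdeal R ^ k ≤ Ideal.span {u, π}) : (horizontalPrimes u π).Finite :=
  (Ideal.finite_minimalPrimes_of_isNoetherianRing R _).subset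
    (horizontalPrimes_subset_minimalPrimes hπm hfin)

theorem eq_of_le_of_mem_horizontalPrimes {u π : R} {k : ℕ} (hπm : π ∈ maximalIdeal R)
    (hfin : maximalIdeal R ^ k ≤ Ideal.span {u, π}) {P Q : Ideal R}
    (hP : P ∈ horizontalPrimes u π) (hQ : Q ∈ horizontalPrimes u π) (hQP : Q ≤ P) : Q = P :=
  eq_of_le_of_mem hπm hfin hP.1 hQ.1 hQP hQ.2.1 hP.2.2

/-- A prime containing `u` is either the maximal ideal or a horizontal prime. -/
theorem mem_horizontalPrimes_or_eq {u π : R} {k : ℕ}
    (hfin : maximalIdeal R ^ k ≤ Ideal.span {u, π}) {P : Ideal R} (hP : P.IsPrime)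
    (hu : u ∈ P) : P ∈ horizontalPrimes u π ∨ P = maximalIdeal R := by
  by_cases hπ : π ∈ P
  · exact Or.inr (eq_maximalIdeal_of_mem hfin hP hu hπ)
  · exact Or.inl ⟨hP, hu, hπ⟩

end Fermat.Agent.A2.H672
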