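import Fermat.Agent.A2.H969.PowRoot
import Fermat.Agent.A2.H672.Chi
import Fermat.Agent.A2.H672.FinLen
import Fermat.Agent.A2.H672.Primes
import Fermat.Agent.A2.H672.Generic

/-!
# A2 / node purity (helper672): the multiplicity identity

`R` a noetherian local integrally closed domain, `π ∈ 𝔪`, `π ≠ 0`, `u ≠ 0`, `m > 0` with
* `u` a nonzerodivisor modulo `π`,
* `(u, π)` primary to the maximal ideal (`𝔪 ^ k ≤ (u, π)`),
* (H1) at every prime `P ∋ u`, `π ∉ P`: `u` is an `m`-th power up to a unit of `R_P`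
  (`∃ z σ, σ ∉ P ∧ z ^ m = σ * u`).

Then, with `I₁ = {f | u ∣ f ^ m}`,

  `length (R ⧸ (u, π)) = m * length (R ⧸ (I₁ + πR))`        (`length_eq_mul_length`).

This is the identity `(D · F) = m (D/m · F)` of intersection numbers of the horizontal divisor
`D = div u` with the special fibre `F = div π`.
-/

set_option autoImplicit false
set_option linter.unusedSectionVars false
set_option linter.style.haveILetI false

namespace Fermat.Agent.A2.H672

open IsLocalRing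

section regular

variable {R : Type*} [CommRing R] [IsDomain R]

theorem dvd_of_dvd_pow_mul {π u : R} (hreg : ∀ x : R, π ∣ u * x → π ∣ x) :
    ∀ (j : ℕ) (y : R), π ∣ u ^ j * y → π ∣ y
  | 0, y, h => by simpa using h
  | j + 1, y, h => by
    refine dvd_of_dvd_pow_mul hreg j y (hreg _ ?_)
    rw [← mul_assoc, ← pow_succ']
    exact h

theorem pow_dvd_of_pow_dvd_mul {π u : R} (hπ0 : π ≠ 0) (hreg : ∀ x : R, π ∣ u * x → π ∣ x)
    (j : ℕ) (x : R) (h : u ^ j ∣ π * x) : u ^ j ∣ x := by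
  obtain ⟨y, hy⟩ := h
  obtain ⟨y', rfl⟩ := dvd_of_dvd_pow_mul hreg j y ⟨x, hy.symm⟩
  refine ⟨y', mul_left_cancel₀ hπ0 ?_⟩
  rw [hy]
  ring

end regular

variable {R : Type*} [CommRing R] [IsDomain R] [IsIntegrallyClosed R] [IsNoetherianRing R]
  [IsLocalRing R]

/-- The associated primes of `R ⧸ (u)` are horizontal. -/
theorem mem_horizontalPrimes_of_isAssociatedPrime {u π : R} (hπ0 : π ≠ 0)
    (hreg : ∀ x : R, π ∣ u * x → π ∣ x) (P : Ideal R)
    (hP : IsAssociatedPrime P (R ⧸ Ideal.span {u})) : P ∈ horizontalPrimes u π := by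
  obtain ⟨-, xb, hPx⟩ := isAssociatedPrime_iff.1 hP
  have hxb : xb ≠ 0 := by
    rintro rfl
    have h1 : (1 : R) ∈ P := by
      rw [hPx, Submodule.mem_colon_singleton, smul_zero]
      exact Submodule.zero_mem _
    exact hP.isPrime.ne_top ((Ideal.eq_top_iff_one _).2 h1)
  obtain ⟨x, rfl⟩ := Ideal.Quotient.mk_surjective xb
  have hmem : ∀ r : R, r ∈ P ↔ r * x ∈ Ideal.span {u} := fun r => by
    rw [hPx]; exact H969.mem_colon_bot_mk_iff u x r
  have hx : x ∉ Ideal.span {u} := by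
    rwa [Ne, Ideal.Quotient.eq_zero_iff_mem] at hxb
  refine ⟨hP.isPrime, (hmem u).2 (Ideal.mem_span_singleton'.2 ⟨x, mul_comm _ _⟩), ?_⟩
  intro hπP
  apply hx
  have := (hmem π).1 hπP
  rw [Ideal.mem_span_singleton] at this ⊢
  have h := pow_dvd_of_pow_dvd_mul hπ0 hreg 1 x (by simpa using this)
  simpa using h

/-- An element outside all horizontal primes is a nonzerodivisor modulo `u`. -/
theorem dvd_of_dvd_mul_of_forall_not_mem {u π : R} (hπ0 : π ≠ 0)
    (hreg : ∀ x : R, π ∣ u * x → π ∣ x) {r : R} (hr : ∀ P ∈ horizontalPrimes u π, r ∉ P)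
    (x : R) (h : u ∣ r * x) : u ∣ x := by
  rw [← Ideal.mem_span_singleton] at h ⊢
  exact H969.mem_span_singleton_of_mul_mem u r x
    (fun P hP => hr P (mem_horizontalPrimes_of_isAssociatedPrime hπ0 hreg P hP)) h

section count

variable (u : R) (hu : u ≠ 0) (m : ℕ) (hm : 0 < m) (π : R)

local notation "I" => H969.powRootIdeal u hu m hm

theorem powRoot_sat (hπ0 : π ≠ 0) (hreg : ∀ x : R, π ∣ u * x → π ∣ x) (j : ℕ) (x : R)
    (h : π * x ∈ I j) : x ∈ I j :=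
  H969.mem_powRootIdeal_of_mul_mem (pow_dvd_of_pow_dvd_mul hπ0 hreg j) h

variable {u m π}

/-- (z1) -/
theorem pow_mul_mem_powRoot {z r : R} (hz : z ^ m = r * u) (j : ℕ) {a : R} (ha : a ∈ I 1) :
    z ^ j * a ∈ I (j + 1) := by
  have hzI : z ∈ I 1 := by
    rw [H969.mem_powRootIdeal, pow_one, hz]
    exact Dvd.intro_left r rfl
  have hzj : z ^ j ∈ I j := by
    rw [H969.mem_powRootIdeal, ← pow_mul, mul_comm, pow_mul, hz, mul_pow]
    exact Dvd.intro_left _ rfl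
  exact H969.mul_mem_powRootIdeal_add hzj ha

/-- (z2) -/
theorem mem_powRoot_of_pow_mul_mem (hπ0 : π ≠ 0) (hreg : ∀ x : R, π ∣ u * x → π ∣ x) {z r : R}
    (hz : z ^ m = r * u) (hr : ∀ P ∈ horizontalPrimes u π, r ∉ P) (j : ℕ) {a : R}
    (ha : z ^ j * a ∈ I (j + 1)) : a ∈ I 1 := by
  rw [H969.mem_powRootIdeal] at ha ⊢
  rw [pow_one]
  obtain ⟨c, hc⟩ := ha
  have h1 : u ^ j * (r ^ j * a ^ m) = u ^ j * (u * c) := by
    have : (z ^ j * a) ^ m = u ^ j * (r ^ j * a ^ m) := by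
      rw [mul_pow, ← pow_mul, mul_comm j m, pow_mul, hz, mul_pow]
      ring
    rw [← this, hc, pow_succ]
    ring
  have h2 : r ^ j * a ^ m = u * c := mul_left_cancel₀ (pow_ne_zero j hu) h1
  refine dvd_of_dvd_mul_of_forall_not_mem hπ0 hreg (r := r ^ j) (fun P hP h => ?_) _ ⟨c, h2⟩
  exact hr P hP (hP.1.mem_of_pow_mem j h)

/-- `r ^ j • I_j ≤ (z ^ j)`. -/
theorem pow_mul_mem_span_pow {z r : R} (hz : z ^ m = r * u) (hr0 : r ≠ 0) (j : ℕ) {f : R}
    (hf : f ∈ I j) : r ^ j * f ∈ Ideal.span {z ^ j} := by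
  rw [H969.mem_powRootIdeal] at hf
  obtain ⟨c, hc⟩ := hf
  rw [Ideal.mem_span_singleton]
  have hz0 : z ≠ 0 := by
    rintro rfl
    rw [zero_pow hm.ne'] at hz
    exact mul_ne_zero hr0 hu hz.symm
  refine H969.dvd_of_pow_dvd_pow (pow_ne_zero j hz0) hm ⟨r ^ (j * (m - 1)) * c, ?_⟩
  have h1 : (z ^ j) ^ m = r ^ j * u ^ j := by
    rw [← pow_mul, mul_comm j m, pow_mul, hz, mul_pow]
  have h2 : r ^ (j * m) = r ^ j * r ^ (j * (m - 1)) := by
    rw [← pow_add]
    congr 1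
    have : m = 1 + (m - 1) := by omega
    conv_lhs => rw [this]
    ring
  rw [mul_pow, hc, h1, ← pow_mul, h2]
  ring

/-- (z3) -/
theorem exists_pow_mul_mem {k : ℕ} (hfin : maximalIdeal R ^ k ≤ Ideal.span {u, π}) {z r : R}
    (hz : z ^ m = r * u) (hr0 : r ≠ 0) (hr : ∀ P ∈ horizontalPrimes u π, r ∉ P) (j : ℕ) :
    ∃ K : ℕ, ∀ a ∈ maximalIdeal R ^ K, ∀ f ∈ I j,
      a * f ∈ Ideal.span {z ^ j} ⊔ I (j + 1) := by
  have hrad : maximalIdeal R ≤ (Ideal.span {u, r ^ j}).radical := by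
    rw [Ideal.radical_eq_sInf]
    refine le_sInf ?_
    rintro P ⟨hle, hP⟩
    have huP : u ∈ P := hle (Ideal.subset_span (by simp))
    have hrP : r ∈ P := hP.mem_of_pow_mem j (hle (Ideal.subset_span (by simp)))
    rcases mem_horizontalPrimes_or_eq hfin hP huP with h | h
    · exact absurd hrP (hr P h)
    · exact h.ge
  obtain ⟨K, hK⟩ := Ideal.exists_pow_le_of_le_radical_of_fg hrad
    (IsNoetherian.noetherian _)
  refine ⟨K, fun a ha f hf => ?_⟩
  obtain ⟨α, β, hαβ⟩ := Ideal.mem_span_pair.1 (hK ha)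
  rw [← hαβ, add_mul]
  refine Ideal.add_mem _ (Ideal.mem_sup_right ?_) (Ideal.mem_sup_left ?_)
  · have : α * u * f = α * (u * f) := by ring
    rw [this]
    refine Ideal.mul_mem_left _ _ ?_
    have h1 := H969.self_mul_mem_powRootIdeal hf
    exact H969.powRootIdeal_antitone (by omega) h1
  · have : β * r ^ j * f = β * (r ^ j * f) := by ring
    rw [this]
    exact Ideal.mul_mem_left _ _ (pow_mul_mem_span_pow hu hm hz hr0 j hf)

/-- Lemma C: multiplication by `z ^ j` identifies `R/(I₁ + πR)` with `X/(I_{j+1} + πX)`,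
`X = (z ^ j) + I_{j+1}`. -/
theorem relLen_generic (hπ0 : π ≠ 0) (hreg : ∀ x : R, π ∣ u * x → π ∣ x) {z r : R}
    (hz : z ^ m = r * u) (hr : ∀ P ∈ horizontalPrimes u π, r ∉ P) (j : ℕ) :
    relLen (I (j + 1) ⊔ Ideal.span {π} * (Ideal.span {z ^ j} ⊔ I (j + 1)))
        (Ideal.span {z ^ j} ⊔ I (j + 1))
      = relLen (I 1 ⊔ Ideal.span {π}) ⊤ := by
  symm
  refine relLen_eq_of_map (LinearMap.mulLeft R (z ^ j)) ?_ ?_ ?_
  · intro b _
    exact Ideal.mem_sup_left (Ideal.mul_mem_right _ _ (Ideal.mem_span_singleton_self _))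
  · intro b _
    simp only [LinearMap.mulLeft_apply]
    rw [mem_sup_span_singleton, mem_sup_span_singleton_mul]
    constructor
    · rintro ⟨i', hi', x, hx, h⟩
      obtain ⟨y, hy, i'', hi'', rfl⟩ := Submodule.mem_sup.1 hx
      obtain ⟨c, rfl⟩ := Ideal.mem_span_singleton'.1 hy
      have h1 : z ^ j * (b - π * c) ∈ I (j + 1) := by
        have : z ^ j * (b - π * c) = i' + π * i'' := by
          rw [mul_sub, h]
          ring
        rw [this]
        exact Ideal.add_mem _ hi' (Ideal.mul_mem_left _ _ hi'')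
      exact ⟨b - π * c, mem_powRoot_of_pow_mul_mem hu hm hπ0 hreg hz hr j h1, c, by ring⟩
    · rintro ⟨i, hi, c, rfl⟩
      refine ⟨z ^ j * i, pow_mul_mem_powRoot hu hm hz j hi, z ^ j * c,
        Ideal.mem_sup_left (Ideal.mul_mem_right _ _ (Ideal.mem_span_singleton_self _)), by ring⟩
  · intro b' hb'
    obtain ⟨y, hy, i', hi', rfl⟩ := Submodule.mem_sup.1 hb'
    obtain ⟨c, rfl⟩ := Ideal.mem_span_singleton'.1 hy
    refine ⟨c, trivial, ?_⟩
    simp only [LinearMap.mulLeft_apply]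
    have : c * z ^ j + i' - z ^ j * c = i' := by ring
    rw [this]
    exact Ideal.mem_sup_left hi'

theorem pow_mem_powRoot {z r : R} (hz : z ^ m = r * u) (j : ℕ) : z ^ j ∈ I j := by
  rw [H969.mem_powRootIdeal, ← pow_mul, mul_comm, pow_mul, hz, mul_pow]
  exact Dvd.intro_left _ rfl

/-- One step of the filtration: `ℓ((I_j + πR)/(I_{j+1} + πR)) = ℓ(R/(I₁ + πR))`. -/
theorem relLen_step (hπ0 : π ≠ 0) (hreg : ∀ x : R, π ∣ u * x → π ∣ x) {k : ℕ}
    (hfin : maximalIdeal R ^ k ≤ Ideal.span {u, π}) {z r : R}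
    (hz : z ^ m = r * u) (hr0 : r ≠ 0) (hr : ∀ P ∈ horizontalPrimes u π, r ∉ P) (j : ℕ) :
    relLen (I (j + 1) ⊔ Ideal.span {π}) (I j ⊔ Ideal.span {π})
      = relLen (I 1 ⊔ Ideal.span {π}) ⊤ := by
  have hle : I (j + 1) ≤ I j := H969.powRootIdeal_antitone (Nat.le_succ j)
  have hX : Ideal.span {z ^ j} ⊔ I (j + 1) ≤ I j := by
    refine sup_le ?_ hle
    rw [Ideal.span_singleton_le_iff_mem]
    exact pow_mem_powRoot hu hm hz j
  obtain ⟨K, hK⟩ := exists_pow_mul_mem hu hm hfin hz hr0 hr j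
  have hfinX : relLen (Ideal.span {z ^ j} ⊔ I (j + 1)) (I j) ≠ ⊤ :=
    relLen_ne_top_of_pow_mul_le _ _ K hX hK
  rw [relLen_sup_span_eq π hle (powRoot_sat u hu m hm π hπ0 hreg j),
    relLen_chi π le_sup_right hX (powRoot_sat u hu m hm π hπ0 hreg (j + 1)) hfinX,
    relLen_generic hu hm hπ0 hreg hz hr j]

/-- Telescoping: `ℓ(R/(I_j + πR)) = j · ℓ(R/(I₁ + πR))`. -/
theorem relLen_powRoot (hπ0 : π ≠ 0) (hreg : ∀ x : R, π ∣ u * x → π ∣ x) {k : ℕ}
    (hfin : maximalIdeal R ^ k ≤ Ideal.span {u, π}) {z r : R}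
    (hz : z ^ m = r * u) (hr0 : r ≠ 0) (hr : ∀ P ∈ horizontalPrimes u π, r ∉ P) (j : ℕ) :
    relLen (I j ⊔ Ideal.span {π}) ⊤ = j * relLen (I 1 ⊔ Ideal.span {π}) ⊤ := by
  induction j with
  | zero =>
    rw [H969.powRootIdeal_zero, top_sup_eq, relLen_self]
    simp
  | succ j ih =>
    have hle : I (j + 1) ⊔ Ideal.span {π} ≤ I j ⊔ Ideal.span {π} :=
      sup_le_sup_right (H969.powRootIdeal_antitone (Nat.le_succ j)) _
    rw [relLen_add hle le_top, ih, relLen_step hu hm hπ0 hreg hfin hz hr0 hr j]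
    push_cast
    ring

end count

/-- **The multiplicity identity.**  `ℓ(R/(u, π)) = m · ℓ(R/(I₁ + πR))`, `I₁ = {f | u ∣ f ^ m}`. -/
theorem length_eq_mul_length (u : R) (hu : u ≠ 0) (m : ℕ) (hm : 0 < m) (π : R) (hπ0 : π ≠ 0)
    (hπm : π ∈ maximalIdeal R) (hreg : ∀ x : R, π ∣ u * x → π ∣ x) (k : ℕ)
    (hfin : maximalIdeal R ^ k ≤ Ideal.span {u, π})
    (hloc : ∀ P : Ideal R, P.IsPrime → u ∈ P → π ∉ P → ∃ z σ : R, σ ∉ P ∧ z ^ m = σ * u) :
    Module.length R (R ⧸ Ideal.span {u, π})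
      = m * Module.length R (R ⧸ (H969.powRootIdeal u hu m hm 1 ⊔ Ideal.span {π})) := by
  obtain ⟨z, r, hz, hr0, hr⟩ := exists_generic_root hu hm (horizontalPrimes u π)
    (finite_horizontalPrimes hπm hfin) (fun P hP => hP.1)
    (fun P hP Q hQ hQP => eq_of_le_of_mem_horizontalPrimes hπm hfin hP hQ hQP)
    (fun P hP => hloc P hP.1 hP.2.1 hP.2.2)
  have h := relLen_powRoot hu hm hπ0 hreg hfin hz hr0 hr m
  rw [H969.powRootIdeal_self, relLen_top, relLen_top, ← Ideal.span_insert] at h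
  exact h

end Fermat.Agent.A2.H672
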