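import Fermat.Agent.A2.H672.Count

/-!
# A2 / node purity (helper672): the purity theorem (abstract special fibre)

`R` a noetherian local integrally closed domain, `π ∈ 𝔪`, `π ≠ 0`, `u, g ∈ R`, `ε ∈ Rˣ`, `m > 0`:

* (H2') `u ≡ ε g ^ m` modulo `π`, `g` a nonzerodivisor modulo `π`;
* (Hfib) `𝔪 ^ k ≤ (u, π)`;
* (H1) at every prime `P ∋ u`, `π ∉ P`: `∃ z σ, σ ∉ P ∧ z ^ m = σ * u`;
* (SF) the special fibre is "seminormal at `g`": if `f ^ m ≡ g ^ m r` modulo `π` with `r ∈ 𝔪`,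
  then `f ∈ g 𝔪 + πR`.

Then `u = δ f ^ m` with `δ` a unit (`exists_unit_mul_pow`).  The hypothesis (SF) is proved for a
smooth special fibre and for a node in `Fermat.Agent.A2.H672.Node`.
-/

set_option autoImplicit false
set_option linter.unusedSectionVars false
set_option linter.style.haveILetI false

namespace Fermat.Agent.A2.H672

open IsLocalRing

section general

variable {R : Type*} [CommRing R]

/-- `ℓ(R/(g ^ j, π)) ≤ j · ℓ(R/(g, π))`. -/
theorem relLen_span_pow_le (g π : R) (j : ℕ) :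
    relLen (Ideal.span {g ^ j} ⊔ Ideal.span {π}) ⊤
      ≤ j * relLen (Ideal.span {g} ⊔ Ideal.span {π}) ⊤ := by
  induction j with
  | zero =>
    rw [pow_zero, Ideal.span_singleton_one, top_sup_eq, relLen_self]
    simp
  | succ j ih =>
    have hle : Ideal.span {g ^ (j + 1)} ⊔ Ideal.span {π} ≤ Ideal.span {g ^ j} ⊔ Ideal.span {π} := by
      refine sup_le_sup_right ?_ _
      rw [Ideal.span_singleton_le_iff_mem, pow_succ]
      exact Ideal.mul_mem_right _ _ (Ideal.mem_span_singleton_self _)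
    have hstep : relLen (Ideal.span {g ^ (j + 1)} ⊔ Ideal.span {π})
        (Ideal.span {g ^ j} ⊔ Ideal.span {π}) ≤ relLen (Ideal.span {g} ⊔ Ideal.span {π}) ⊤ := by
      refine relLen_le_of_map (LinearMap.mulLeft R (g ^ j)) ?_ ?_ ?_
      · intro b _
        exact Ideal.mem_sup_left (Ideal.mul_mem_right _ _ (Ideal.mem_span_singleton_self _))
      · intro b _ hb
        obtain ⟨a, ha, c, rfl⟩ := mem_sup_span_singleton.1 hb
        obtain ⟨d, rfl⟩ := Ideal.mem_span_singleton'.1 ha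
        simp only [LinearMap.mulLeft_apply]
        refine mem_sup_span_singleton.2 ⟨g ^ (j + 1) * d, ?_, g ^ j * c, by ring⟩
        exact Ideal.mul_mem_right _ _ (Ideal.mem_span_singleton_self _)
      · intro b' hb'
        obtain ⟨a, ha, c, rfl⟩ := mem_sup_span_singleton.1 hb'
        obtain ⟨d, rfl⟩ := Ideal.mem_span_singleton'.1 ha
        refine ⟨d, trivial, ?_⟩
        simp only [LinearMap.mulLeft_apply]
        have : d * g ^ j + π * c - g ^ j * d = π * c := by ring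
        rw [this]
        exact Ideal.mem_sup_right (Ideal.mul_mem_right _ _ (Ideal.mem_span_singleton_self _))
    rw [relLen_add hle le_top]
    calc relLen (Ideal.span {g ^ (j + 1)} ⊔ Ideal.span {π}) (Ideal.span {g ^ j} ⊔ Ideal.span {π})
          + relLen (Ideal.span {g ^ j} ⊔ Ideal.span {π}) ⊤
        ≤ relLen (Ideal.span {g} ⊔ Ideal.span {π}) ⊤
          + j * relLen (Ideal.span {g} ⊔ Ideal.span {π}) ⊤ := add_le_add hstep ih
      _ = ((j + 1 : ℕ) : ℕ∞) * relLen (Ideal.span {g} ⊔ Ideal.span {π}) ⊤ := by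
        push_cast
        ring

/-- If `u ≡ ε v` modulo `π` with `ε` a unit then `(u, π) = (v, π)`. -/
theorem span_pair_eq_of_dvd_sub {u v ε π : R} (hε : IsUnit ε) (h : π ∣ u - ε * v) :
    Ideal.span {u} ⊔ Ideal.span {π} = Ideal.span {v} ⊔ Ideal.span {π} := by
  obtain ⟨c, hc⟩ := h
  obtain ⟨ε', rfl⟩ := hε
  refine le_antisymm (sup_le ?_ le_sup_right) (sup_le ?_ le_sup_right)
  · rw [Ideal.span_singleton_le_iff_mem]
    refine mem_sup_span_singleton.2 ⟨ε' * v, Ideal.mul_mem_left _ _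
      (Ideal.mem_span_singleton_self _), c, ?_⟩
    rw [← hc]
    ring
  · rw [Ideal.span_singleton_le_iff_mem]
    refine mem_sup_span_singleton.2 ⟨↑ε'⁻¹ * u, Ideal.mul_mem_left _ _
      (Ideal.mem_span_singleton_self _), -(↑ε'⁻¹ * c), ?_⟩
    have : π * -(↑ε'⁻¹ * c) = -(↑ε'⁻¹ * (π * c)) := by ring
    rw [this, ← hc]
    have h1 : (↑ε'⁻¹ : R) * (ε' : R) = 1 := Units.inv_mul ε'
    linear_combination (-v) * h1

end general

variable {R : Type*} [CommRing R] [IsDomain R] [IsIntegrallyClosed R] [IsNoetherianRing R]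
  [IsLocalRing R]

/-- **Node purity, abstract form.**  See the header of this file. -/
theorem exists_unit_mul_pow (u g ε π : R) (m : ℕ) (hm : 0 < m) (hπ0 : π ≠ 0)
    (hπm : π ∈ maximalIdeal R) (hε : IsUnit ε) (hcong : π ∣ u - ε * g ^ m)
    (hg : ∀ x : R, π ∣ g * x → π ∣ x) (k : ℕ)
    (hfin : maximalIdeal R ^ k ≤ Ideal.span {u, π})
    (hloc : ∀ P : Ideal R, P.IsPrime → u ∈ P → π ∉ P → ∃ z σ : R, σ ∉ P ∧ z ^ m = σ * u)
    (hSF : ∀ f r : R, r ∈ maximalIdeal R → π ∣ f ^ m - g ^ m * r →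
      ∃ μ ∈ maximalIdeal R, ∃ c : R, f = g * μ + π * c) :
    ∃ f δ : R, IsUnit δ ∧ u = δ * f ^ m := by
  have hπu : ¬ IsUnit π := (IsLocalRing.mem_maximalIdeal π).1 hπm
  -- `u` is a nonzerodivisor modulo `π`
  have hreg : ∀ x : R, π ∣ u * x → π ∣ x := by
    intro x hx
    have h1 : π ∣ g ^ m * (ε * x) := by
      have : g ^ m * (ε * x) = u * x - (u - ε * g ^ m) * x := by ring
      rw [this]
      exact dvd_sub hx (hcong.mul_right x)
    have h2 := dvd_of_dvd_pow_mul hg m _ h1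
    exact (hε.dvd_mul_left).1 h2
  have hu : u ≠ 0 := by
    rintro rfl
    exact hπu (isUnit_of_dvd_one (hreg 1 (by simp)))
  -- the multiplicity identity
  have hmult := length_eq_mul_length u hu m hm π hπ0 hπm hreg k hfin hloc
  rw [← relLen_top, ← relLen_top, Ideal.span_insert,
    span_pair_eq_of_dvd_sub hε hcong] at hmult
  set ℓ₀ := relLen (H969.powRootIdeal u hu m hm 1 ⊔ Ideal.span {π}) ⊤ with hℓ₀
  set lam := relLen (Ideal.span {g} ⊔ Ideal.span {π}) ⊤ with hlam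
  have hgm : Ideal.span {u, π} ≤ Ideal.span {g} ⊔ Ideal.span {π} := by
    rw [Ideal.span_insert, span_pair_eq_of_dvd_sub hε hcong]
    refine sup_le_sup_right ?_ _
    rw [Ideal.span_singleton_le_iff_mem]
    obtain ⟨n, rfl⟩ := Nat.exists_eq_succ_of_ne_zero hm.ne'
    rw [pow_succ]
    exact Ideal.mul_mem_left _ _ (Ideal.mem_span_singleton_self _)
  have hlamfin : lam ≠ ⊤ := relLen_top_ne_top_of_pow_le _ k (hfin.trans hgm)
  have hle : ℓ₀ ≤ lam := by
    have h1 : (m : ℕ∞) * ℓ₀ ≤ m * lam := by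
      rw [← hmult]
      exact relLen_span_pow_le g π m
    exact (ENat.mul_le_mul_left_iff (by exact_mod_cast hm.ne') (ENat.natCast_ne_top m)).1 h1
  -- `g ∉ g 𝔪 + π R`
  have hgJ : g ∉ Ideal.span {g} * maximalIdeal R ⊔ Ideal.span {π} := by
    intro h
    obtain ⟨a, ha, c, hc⟩ := mem_sup_span_singleton.1 h
    obtain ⟨μ, hμ, rfl⟩ := Ideal.mem_span_singleton_mul.1 ha
    have h1 : π ∣ g * (1 - μ) := ⟨c, by linear_combination hc⟩
    have h2 := hg _ h1
    have h3 : IsUnit (1 - μ) := by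
      have := (IsLocalRing.mem_maximalIdeal μ).1 hμ
      rcases IsLocalRing.isUnit_or_isUnit_one_sub_self μ with h | h
      · exact absurd h this
      · exact h
    exact hπu (isUnit_of_dvd_unit h2 h3)
  -- some `f ∈ I₁` lies outside `g 𝔪 + π R`
  have hex : ∃ f ∈ H969.powRootIdeal u hu m hm 1,
      f ∉ Ideal.span {g} * maximalIdeal R ⊔ Ideal.span {π} := by
    by_contra hcon
    push Not at hcon
    have hI : H969.powRootIdeal u hu m hm 1 ⊔ Ideal.span {π}
        ≤ Ideal.span {g} * maximalIdeal R ⊔ Ideal.span {π} :=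
      sup_le hcon le_sup_right
    have hJ : Ideal.span {g} * maximalIdeal R ⊔ Ideal.span {π}
        ≤ Ideal.span {g} ⊔ Ideal.span {π} :=
      sup_le_sup_right Ideal.mul_le_left _
    have h1 : relLen (Ideal.span {g} * maximalIdeal R ⊔ Ideal.span {π}) ⊤ ≤ ℓ₀ :=
      relLen_anti_left ⊤ hI
    rw [relLen_add hJ le_top] at h1
    have h2 : relLen (Ideal.span {g} * maximalIdeal R ⊔ Ideal.span {π})
        (Ideal.span {g} ⊔ Ideal.span {π}) ≠ 0 := by
      rw [Ne, relLen_eq_zero_iff]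
      intro h
      exact hgJ (h (Ideal.mem_sup_left (Ideal.mem_span_singleton_self g)))
    have h3 : 1 + lam ≤ lam :=
      (add_le_add (Order.one_le_iff_ne_zero.2 h2) le_rfl).trans (h1.trans hle)
    obtain ⟨n, hn⟩ := ENat.ne_top_iff_exists.1 hlamfin
    rw [← hn] at h3
    have : (1 : ℕ) + n ≤ n := by exact_mod_cast h3
    omega
  obtain ⟨f, hfI, hfJ⟩ := hex
  rw [H969.mem_powRootIdeal, pow_one] at hfI
  obtain ⟨r₀, hr₀⟩ := hfI
  have hr₀u : IsUnit r₀ := by
    by_contra hnu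
    have hr₀m : r₀ ∈ maximalIdeal R := (IsLocalRing.mem_maximalIdeal r₀).2 hnu
    obtain ⟨μ, hμ, c, hc⟩ := hSF f (ε * r₀) (Ideal.mul_mem_left _ _ hr₀m) (by
      have : f ^ m - g ^ m * (ε * r₀) = (u - ε * g ^ m) * r₀ := by rw [hr₀]; ring
      rw [this]
      exact hcong.mul_right r₀)
    apply hfJ
    exact mem_sup_span_singleton.2 ⟨g * μ, Ideal.mem_span_singleton_mul.2 ⟨μ, hμ, rfl⟩, c, hc⟩
  obtain ⟨ρ, rfl⟩ := hr₀u
  refine ⟨f, ↑ρ⁻¹, Units.isUnit _, ?_⟩
  rw [hr₀]
  have h1 : (↑ρ⁻¹ : R) * (ρ : R) = 1 := Units.inv_mul ρ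
  linear_combination (-u) * h1

end Fermat.Agent.A2.H672
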