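import Mathlib.RingTheory.DiscreteValuationRing.Basic
import Mathlib.RingTheory.DedekindDomain.Basic
import Fermat.Agent.A2.H672.Purity

/-!
# A2 / node purity (helper672): smooth points and nodes of the special fibre

`R` a noetherian local integrally closed domain, `π ≠ 0`, and two primes `𝔭₁, 𝔭₂` of `R` with
`(π) = 𝔭₁ ⊓ 𝔭₂`, `R ⧸ 𝔭ᵢ` discrete valuation rings, and either `𝔭₁ = 𝔭₂` (smooth point of the
special fibre) or `𝔪 ≤ 𝔭₁ ⊔ 𝔭₂` (ordinary double point).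

* `sf_of_branches` : the abstract special fibre condition (SF) of `exists_unit_mul_pow`.
* `exists_pow_le_span_pair` : `𝔪 ^ k ≤ (u, π)` for `u ∉ 𝔭₁ ∪ 𝔭₂`.
* `node_purity` : if `u ≡ ε g ^ m` modulo `π` (`ε` a unit, `g ∉ 𝔭₁ ∪ 𝔭₂`) and `u` is an `m`-th
  power up to units at all primes `P ∋ u`, `π ∉ P`, then `u = δ f ^ m`, `δ` a unit.
-/

set_option autoImplicit false
set_option linter.unusedSectionVars false
set_option linter.style.haveILetI false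

namespace Fermat.Agent.A2.H672

open IsLocalRing

section branches

variable {R : Type*} [CommRing R] [IsLocalRing R]

/-- (SF) along one branch: if `R ⧸ 𝔭` is an integrally closed domain, `g ∉ 𝔭` and
`f ^ m ≡ g ^ m r` modulo `𝔭` with `r ∈ 𝔪`, then `f ≡ g μ` modulo `𝔭` with `μ ∈ 𝔪`. -/
theorem exists_mem_maximalIdeal_sub_mem (𝔭 : Ideal R) [𝔭.IsPrime] [IsIntegrallyClosed (R ⧸ 𝔭)]
    {g : R} (hg : g ∉ 𝔭) {m : ℕ} (hm : 0 < m) {f r : R} (hr : r ∈ maximalIdeal R)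
    (h : f ^ m - g ^ m * r ∈ 𝔭) : ∃ μ ∈ maximalIdeal R, f - g * μ ∈ 𝔭 := by
  have h𝔭m : 𝔭 ≤ maximalIdeal R := IsLocalRing.le_maximalIdeal (Ideal.IsPrime.ne_top inferInstance)
  let mk := Ideal.Quotient.mk 𝔭
  have hg' : mk g ≠ 0 := by
    rwa [Ne, Ideal.Quotient.eq_zero_iff_mem]
  have heq : mk f ^ m = mk g ^ m * mk r := by
    rw [← map_pow, ← map_pow, ← map_mul, ← sub_eq_zero, ← map_sub]
    exact Ideal.Quotient.eq_zero_iff_mem.2 h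
  obtain ⟨hb, hhb⟩ := H969.dvd_of_pow_dvd_pow hg' hm ⟨mk r, heq⟩
  obtain ⟨μ, rfl⟩ := Ideal.Quotient.mk_surjective hb
  have hμr : mk μ ^ m = mk r := by
    rw [hhb, mul_pow] at heq
    exact mul_left_cancel₀ (pow_ne_zero m hg') heq
  refine ⟨μ, ?_, ?_⟩
  · have h1 : μ ^ m - r ∈ 𝔭 := by
      rw [← Ideal.Quotient.eq_zero_iff_mem, map_sub, map_pow]
      exact sub_eq_zero.2 hμr
    have h2 : μ ^ m ∈ maximalIdeal R := by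
      have : μ ^ m = (μ ^ m - r) + r := by ring
      rw [this]
      exact Ideal.add_mem _ (h𝔭m h1) hr
    exact (IsLocalRing.maximalIdeal.isMaximal R).isPrime.mem_of_pow_mem m h2
  · rw [← Ideal.Quotient.eq_zero_iff_mem, map_sub, map_mul]
    exact sub_eq_zero.2 hhb

/-- The special fibre condition (SF) at a smooth point or a node. -/
theorem sf_of_branches (𝔭₁ 𝔭₂ : Ideal R) [𝔭₁.IsPrime] [𝔭₂.IsPrime]
    [IsIntegrallyClosed (R ⧸ 𝔭₁)] [IsIntegrallyClosed (R ⧸ 𝔭₂)] {π : R}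
    (hπ : Ideal.span {π} = 𝔭₁ ⊓ 𝔭₂) (hnode : 𝔭₁ = 𝔭₂ ∨ maximalIdeal R ≤ 𝔭₁ ⊔ 𝔭₂)
    {g : R} (hg₁ : g ∉ 𝔭₁) (hg₂ : g ∉ 𝔭₂) {m : ℕ} (hm : 0 < m) (f r : R)
    (hr : r ∈ maximalIdeal R) (h : π ∣ f ^ m - g ^ m * r) :
    ∃ μ ∈ maximalIdeal R, ∃ c : R, f = g * μ + π * c := by
  have hmem : f ^ m - g ^ m * r ∈ 𝔭₁ ⊓ 𝔭₂ := by
    rw [← hπ, Ideal.mem_span_singleton]
    exact h
  obtain ⟨μ₁, hμ₁, h₁⟩ := exists_mem_maximalIdeal_sub_mem 𝔭₁ hg₁ hm hr hmem.1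
  obtain ⟨μ₂, hμ₂, h₂⟩ := exists_mem_maximalIdeal_sub_mem 𝔭₂ hg₂ hm hr hmem.2
  have key : ∀ μ ∈ maximalIdeal R, f - g * μ ∈ 𝔭₁ → f - g * μ ∈ 𝔭₂ →
      ∃ μ ∈ maximalIdeal R, ∃ c : R, f = g * μ + π * c := by
    intro μ hμ h1 h2
    have : f - g * μ ∈ Ideal.span {π} := by
      rw [hπ]
      exact ⟨h1, h2⟩
    obtain ⟨c, hc⟩ := Ideal.mem_span_singleton'.1 this
    exact ⟨μ, hμ, c, by linear_combination -hc⟩
  rcases hnode with heq | hsup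
  · exact key μ₁ hμ₁ h₁ (heq ▸ h₁)
  · have h𝔭₁m : 𝔭₁ ≤ maximalIdeal R :=
      IsLocalRing.le_maximalIdeal (Ideal.IsPrime.ne_top inferInstance)
    obtain ⟨p₁, hp₁, p₂, hp₂, hsum⟩ := Submodule.mem_sup.1 (hsup (Ideal.sub_mem _ hμ₁ hμ₂))
    refine key (μ₁ - p₁) (Ideal.sub_mem _ hμ₁ (h𝔭₁m hp₁)) ?_ ?_
    · have : f - g * (μ₁ - p₁) = (f - g * μ₁) + g * p₁ := by ring
      rw [this]
      exact Ideal.add_mem _ h₁ (Ideal.mul_mem_left _ _ hp₁)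
    · have : f - g * (μ₁ - p₁) = (f - g * μ₂) - g * p₂ := by
        have : μ₁ - p₁ = μ₂ + p₂ := by linear_combination hsum.symm
        rw [this]
        ring
      rw [this]
      exact Ideal.sub_mem _ h₂ (Ideal.mul_mem_left _ _ hp₂)

/-- In a local ring whose quotient by `𝔭` is a discrete valuation ring, every `u ∉ 𝔭`
generates, together with `𝔭`, an ideal primary to the maximal ideal. -/
theorem exists_pow_le_span_sup (𝔭 : Ideal R) [𝔭.IsPrime]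
    [IsDiscreteValuationRing (R ⧸ 𝔭)] {u : R} (hu : u ∉ 𝔭) :
    ∃ k : ℕ, maximalIdeal R ^ k ≤ Ideal.span {u} ⊔ 𝔭 := by
  have h𝔭m : 𝔭 ≤ maximalIdeal R := IsLocalRing.le_maximalIdeal (Ideal.IsPrime.ne_top inferInstance)
  let mk := Ideal.Quotient.mk 𝔭
  have hu' : mk u ≠ 0 := by
    rwa [Ne, Ideal.Quotient.eq_zero_iff_mem]
  obtain ⟨ϖ, hϖ⟩ := IsDiscreteValuationRing.exists_irreducible (R ⧸ 𝔭)
  obtain ⟨n, v, hv⟩ := IsDiscreteValuationRing.eq_unit_mul_pow_irreducible hu' hϖ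
  have hmap : (maximalIdeal R).map mk ≤ Ideal.span {ϖ} := by
    rw [← hϖ.maximalIdeal_eq, Ideal.map_le_iff_le_comap]
    intro x hx
    rw [Ideal.mem_comap, IsLocalRing.mem_maximalIdeal, mem_nonunits_iff]
    intro hunit
    obtain ⟨y, hy⟩ := hunit.exists_right_inv
    obtain ⟨s, rfl⟩ := Ideal.Quotient.mk_surjective y
    have h1 : x * s - 1 ∈ 𝔭 := by
      rw [← Ideal.Quotient.eq_zero_iff_mem, map_sub, map_mul, map_one]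
      exact sub_eq_zero.2 hy
    have h2 : (1 : R) ∈ maximalIdeal R := by
      have : (1 : R) = x * s - (x * s - 1) := by ring
      rw [this]
      exact Ideal.sub_mem _ (Ideal.mul_mem_right _ _ hx) (h𝔭m h1)
    exact (IsLocalRing.maximalIdeal.isMaximal R).ne_top ((Ideal.eq_top_iff_one _).2 h2)
  refine ⟨n, fun x hx => ?_⟩
  have h1 : mk x ∈ Ideal.span {ϖ} ^ n := by
    have : mk x ∈ ((maximalIdeal R) ^ n).map mk := Ideal.mem_map_of_mem _ hx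
    rw [Ideal.map_pow] at this
    exact Ideal.pow_right_mono hmap n this
  rw [Ideal.span_singleton_pow, Ideal.mem_span_singleton] at h1
  obtain ⟨y, hy⟩ := h1
  obtain ⟨y', hy'⟩ := Ideal.Quotient.mk_surjective (((v⁻¹ : (R ⧸ 𝔭)ˣ) : R ⧸ 𝔭) * y)
  have h2 : mk x = mk u * mk y' := by
    rw [hy, hv]
    have h3 : mk y' = ((v⁻¹ : (R ⧸ 𝔭)ˣ) : R ⧸ 𝔭) * y := hy'
    rw [h3]
    have h4 : (v : R ⧸ 𝔭) * ((v⁻¹ : (R ⧸ 𝔭)ˣ) : R ⧸ 𝔭) = 1 := Units.mul_inv v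
    linear_combination (-(ϖ ^ n * y)) * h4
  have h3 : x - u * y' ∈ 𝔭 := by
    rw [← Ideal.Quotient.eq_zero_iff_mem, map_sub, map_mul]
    exact sub_eq_zero.2 h2
  have : x = u * y' + (x - u * y') := by ring
  rw [this]
  exact Ideal.add_mem _ (Ideal.mem_sup_left (Ideal.mul_mem_right _ _
    (Ideal.mem_span_singleton_self u))) (Ideal.mem_sup_right h3)

/-- `(u, π)` is primary to the maximal ideal when `(π) = 𝔭₁ ⊓ 𝔭₂` with `R ⧸ 𝔭ᵢ` discrete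
valuation rings and `u ∉ 𝔭₁ ∪ 𝔭₂`. -/
theorem exists_pow_le_span_pair (𝔭₁ 𝔭₂ : Ideal R) [𝔭₁.IsPrime] [𝔭₂.IsPrime]
    [IsDiscreteValuationRing (R ⧸ 𝔭₁)] [IsDiscreteValuationRing (R ⧸ 𝔭₂)] {π : R}
    (hπ : Ideal.span {π} = 𝔭₁ ⊓ 𝔭₂) {u : R} (hu₁ : u ∉ 𝔭₁) (hu₂ : u ∉ 𝔭₂) :
    ∃ k : ℕ, maximalIdeal R ^ k ≤ Ideal.span {u, π} := by
  obtain ⟨k₁, hk₁⟩ := exists_pow_le_span_sup 𝔭₁ hu₁
  obtain ⟨k₂, hk₂⟩ := exists_pow_le_span_sup 𝔭₂ hu₂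
  refine ⟨k₁ + k₂, ?_⟩
  rw [pow_add, Ideal.span_insert, hπ]
  refine (Ideal.mul_mono hk₁ hk₂).trans ?_
  rw [Ideal.mul_le]
  intro x hx y hy
  obtain ⟨a, ha, p₁, hp₁, rfl⟩ := Submodule.mem_sup.1 hx
  obtain ⟨b, hb, p₂, hp₂, rfl⟩ := Submodule.mem_sup.1 hy
  have : (a + p₁) * (b + p₂) = (a * (b + p₂) + p₁ * b) + p₁ * p₂ := by ring
  rw [this]
  refine Ideal.add_mem _ (Ideal.mem_sup_left ?_) (Ideal.mem_sup_right ?_)
  · exact Ideal.add_mem _ (Ideal.mul_mem_right _ _ ha) (Ideal.mul_mem_left _ _ hb)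
  · exact ⟨Ideal.mul_mem_right _ _ hp₁, Ideal.mul_mem_left _ _ hp₂⟩

end branches

variable {R : Type*} [CommRing R] [IsDomain R] [IsIntegrallyClosed R] [IsNoetherianRing R]
  [IsLocalRing R]

/-- **Node purity** at a smooth point or an ordinary double point of the special fibre. -/
theorem node_purity (𝔭₁ 𝔭₂ : Ideal R) [𝔭₁.IsPrime] [𝔭₂.IsPrime]
    [IsDiscreteValuationRing (R ⧸ 𝔭₁)] [IsDiscreteValuationRing (R ⧸ 𝔭₂)] (π : R) (hπ0 : π ≠ 0)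
    (hπ : Ideal.span {π} = 𝔭₁ ⊓ 𝔭₂) (hnode : 𝔭₁ = 𝔭₂ ∨ maximalIdeal R ≤ 𝔭₁ ⊔ 𝔭₂)
    (u g ε : R) (m : ℕ) (hm : 0 < m) (hε : IsUnit ε) (hcong : π ∣ u - ε * g ^ m)
    (hg₁ : g ∉ 𝔭₁) (hg₂ : g ∉ 𝔭₂)
    (hloc : ∀ P : Ideal R, P.IsPrime → u ∈ P → π ∉ P → ∃ z σ : R, σ ∉ P ∧ z ^ m = σ * u) :
    ∃ f δ : R, IsUnit δ ∧ u = δ * f ^ m := by
  have hπ𝔭 : π ∈ 𝔭₁ ⊓ 𝔭₂ := hπ ▸ Ideal.mem_span_singleton_self π
  have h𝔭₁m : 𝔭₁ ≤ maximalIdeal R :=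
    IsLocalRing.le_maximalIdeal (Ideal.IsPrime.ne_top inferInstance)
  have hπm : π ∈ maximalIdeal R := h𝔭₁m hπ𝔭.1
  have hu : ∀ 𝔭 : Ideal R, 𝔭.IsPrime → π ∈ 𝔭 → g ∉ 𝔭 → u ∉ 𝔭 := by
    intro 𝔭 h𝔭 hπ𝔭 hg hu
    obtain ⟨c, hc⟩ := hcong
    have h1 : ε * g ^ m ∈ 𝔭 := by
      have : ε * g ^ m = u - π * c := by rw [← hc]; ring
      rw [this]
      exact Ideal.sub_mem _ hu (Ideal.mul_mem_right _ _ hπ𝔭)
    rcases h𝔭.mem_or_mem h1 with h2 | h2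
    · exact h𝔭.ne_top (Ideal.eq_top_of_isUnit_mem _ h2 hε)
    · exact hg (h𝔭.mem_of_pow_mem m h2)
  obtain ⟨k, hk⟩ := exists_pow_le_span_pair 𝔭₁ 𝔭₂ hπ
    (hu 𝔭₁ inferInstance hπ𝔭.1 hg₁) (hu 𝔭₂ inferInstance hπ𝔭.2 hg₂)
  have hg : ∀ x : R, π ∣ g * x → π ∣ x := by
    intro x hx
    rw [← Ideal.mem_span_singleton, hπ] at hx ⊢
    exact ⟨((Ideal.IsPrime.mem_or_mem inferInstance hx.1).resolve_left hg₁),
      ((Ideal.IsPrime.mem_or_mem inferInstance hx.2).resolve_left hg₂)⟩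
  exact exists_unit_mul_pow u g ε π m hm hπ0 hπm hε hcong hg k hk hloc
    (sf_of_branches 𝔭₁ 𝔭₂ hπ hnode hg₁ hg₂ hm)

end Fermat.Agent.A2.H672
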