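import Mathlib.RingTheory.Localization.FractionRing
import Fermat.Agent.A2.H672.Node

/-!
# A2 / node purity (helper672): fraction field form

`R` a noetherian local integrally closed domain with fraction field `K`, `(π) = 𝔭₁ ⊓ 𝔭₂` as in
`Fermat.Agent.A2.H672.Node`.  For `u ∈ K` which is congruent to `ε G ^ m` at both branches
(`ε ∈ Rˣ`, `G ∈ R ∖ (𝔭₁ ∪ 𝔭₂)`; e.g. `u ≡ 1`: take `ε = G = 1`) and which is an `m`-th power up
to units of `R_P` at all primes `P` with `π ∉ P`, we get `u = δ h ^ m` with `δ ∈ Rˣ`, `h ∈ K`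
(`node_purity_frac`, `node_purity_frac_one`).
-/

set_option autoImplicit false
set_option linter.unusedSectionVars false
set_option linter.style.haveILetI false

namespace Fermat.Agent.A2.H672

open IsLocalRing

variable {R : Type*} [CommRing R] [IsDomain R] [IsIntegrallyClosed R] [IsNoetherianRing R]
  [IsLocalRing R]
variable (K : Type*) [Field K] [Algebra R K] [IsFractionRing R K]

omit [IsIntegrallyClosed R] [IsNoetherianRing R] [IsLocalRing R] in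
/-- A common denominator outside two primes. -/
theorem exists_common_denominator (𝔭₁ 𝔭₂ : Ideal R) [𝔭₁.IsPrime] [𝔭₂.IsPrime] (u : K)
    (h₁ : ∃ a b : R, b ∉ 𝔭₁ ∧ u * algebraMap R K b = algebraMap R K a)
    (h₂ : ∃ a b : R, b ∉ 𝔭₂ ∧ u * algebraMap R K b = algebraMap R K a) :
    ∃ a b : R, b ∉ 𝔭₁ ∧ b ∉ 𝔭₂ ∧ u * algebraMap R K b = algebraMap R K a := by
  obtain ⟨a₁, b₁, hb₁, h1⟩ := h₁
  obtain ⟨a₂, b₂, hb₂, h2⟩ := h₂
  by_cases hb₁₂ : b₁ ∈ 𝔭₂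
  · by_cases hb₂₁ : b₂ ∈ 𝔭₁
    · refine ⟨a₁ + a₂, b₁ + b₂, ?_, ?_, ?_⟩
      · intro h
        apply hb₁
        have : b₁ = (b₁ + b₂) - b₂ := by ring
        rw [this]
        exact Ideal.sub_mem _ h hb₂₁
      · intro h
        apply hb₂
        have : b₂ = (b₁ + b₂) - b₁ := by ring
        rw [this]
        exact Ideal.sub_mem _ h hb₁₂
      · rw [map_add, map_add, mul_add, h1, h2]
    · exact ⟨a₂, b₂, hb₂₁, hb₂, h2⟩
  · exact ⟨a₁, b₁, hb₁, hb₁₂, h1⟩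

/-- **Node purity, fraction field form.** -/
theorem node_purity_frac (𝔭₁ 𝔭₂ : Ideal R) [𝔭₁.IsPrime] [𝔭₂.IsPrime]
    [IsDiscreteValuationRing (R ⧸ 𝔭₁)] [IsDiscreteValuationRing (R ⧸ 𝔭₂)] (π : R) (hπ0 : π ≠ 0)
    (hπ : Ideal.span {π} = 𝔭₁ ⊓ 𝔭₂) (hnode : 𝔭₁ = 𝔭₂ ∨ maximalIdeal R ≤ 𝔭₁ ⊔ 𝔭₂)
    (u : K) (G ε : R) (m : ℕ) (hm : 0 < m) (hε : IsUnit ε) (hG₁ : G ∉ 𝔭₁) (hG₂ : G ∉ 𝔭₂)
    (h₁ : ∃ a b : R, b ∉ 𝔭₁ ∧ a - ε * G ^ m * b ∈ 𝔭₁ ∧ u * algebraMap R K b = algebraMap R K a)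
    (h₂ : ∃ a b : R, b ∉ 𝔭₂ ∧ a - ε * G ^ m * b ∈ 𝔭₂ ∧ u * algebraMap R K b = algebraMap R K a)
    (hloc : ∀ P : Ideal R, P.IsPrime → π ∉ P → ∃ (z : K) (s₁ s₂ : R), s₁ ∉ P ∧ s₂ ∉ P ∧
      algebraMap R K s₁ * u = algebraMap R K s₂ * z ^ m) :
    ∃ (h : K) (δ : R), IsUnit δ ∧ u = algebraMap R K δ * h ^ m := by
  have hinj : Function.Injective (algebraMap R K) := IsFractionRing.injective R K
  obtain ⟨a, b, hb₁, hb₂, hab⟩ := exists_common_denominator K 𝔭₁ 𝔭₂ u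
    (by obtain ⟨a, b, h1, -, h3⟩ := h₁; exact ⟨a, b, h1, h3⟩)
    (by obtain ⟨a, b, h1, -, h3⟩ := h₂; exact ⟨a, b, h1, h3⟩)
  have hb0 : b ≠ 0 := by
    rintro rfl
    exact hb₁ (Ideal.zero_mem _)
  have hbK : algebraMap R K b ≠ 0 := by rwa [Ne, map_eq_zero_iff _ hinj]
  -- the numerator `U = u b ^ m`
  obtain ⟨n, rfl⟩ := Nat.exists_eq_succ_of_ne_zero hm.ne'
  set U : R := a * b ^ n with hU
  have hUK : algebraMap R K U = u * algebraMap R K b ^ (n + 1) := by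
    rw [hU, map_mul, map_pow, ← hab, pow_succ]
    ring
  -- congruence on the branches
  have hbr : ∀ 𝔭 : Ideal R, 𝔭.IsPrime →
      (∃ a b : R, b ∉ 𝔭 ∧ a - ε * G ^ (n + 1) * b ∈ 𝔭 ∧
        u * algebraMap R K b = algebraMap R K a) → U - ε * (G * b) ^ (n + 1) ∈ 𝔭 := by
    rintro 𝔭 h𝔭 ⟨a', b', hb', hcong, hab'⟩
    have h1 : b' * (U - ε * (G * b) ^ (n + 1)) = b ^ (n + 1) * (a' - ε * G ^ (n + 1) * b') := by
      apply hinj
      simp only [map_mul, map_sub, map_pow]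
      rw [← map_pow, ← map_pow, hUK, ← hab']
      simp only [map_pow]
      ring
    have h2 : b' * (U - ε * (G * b) ^ (n + 1)) ∈ 𝔭 := by
      rw [h1]
      exact Ideal.mul_mem_left _ _ hcong
    exact (h𝔭.mem_or_mem h2).resolve_left hb'
  have hcong : π ∣ U - ε * (G * b) ^ (n + 1) := by
    rw [← Ideal.mem_span_singleton, hπ]
    exact ⟨hbr 𝔭₁ inferInstance h₁, hbr 𝔭₂ inferInstance h₂⟩
  have hg₁ : G * b ∉ 𝔭₁ := fun h =>
    ((Ideal.IsPrime.mem_or_mem inferInstance h).elim hG₁ hb₁)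
  have hg₂ : G * b ∉ 𝔭₂ := fun h =>
    ((Ideal.IsPrime.mem_or_mem inferInstance h).elim hG₂ hb₂)
  -- (H1) for `U`
  have hlocU : ∀ P : Ideal R, P.IsPrime → U ∈ P → π ∉ P →
      ∃ z σ : R, σ ∉ P ∧ z ^ (n + 1) = σ * U := by
    intro P hP _ hπP
    obtain ⟨z, s₁, s₂, hs₁, hs₂, hz⟩ := hloc P hP hπP
    have hpow : (algebraMap R K s₂ * z * algebraMap R K b) ^ (n + 1)
        = algebraMap R K (s₂ ^ n * s₁ * U) := by
      rw [map_mul, map_mul, hUK, map_pow, mul_pow, mul_pow, pow_succ (algebraMap R K s₂) n]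
      have : algebraMap R K s₂ ^ n * algebraMap R K s₂ * z ^ (n + 1) * algebraMap R K b ^ (n + 1)
          = algebraMap R K s₂ ^ n * (algebraMap R K s₂ * z ^ (n + 1))
            * algebraMap R K b ^ (n + 1) := by ring
      rw [this, ← hz]
      ring
    have hint : IsIntegral R (algebraMap R K s₂ * z * algebraMap R K b) := by
      refine IsIntegral.of_pow (Nat.succ_pos n) ?_
      rw [hpow]
      exact isIntegral_algebraMap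
    obtain ⟨y, hy⟩ := IsIntegrallyClosed.algebraMap_eq_of_integral hint
    refine ⟨y, s₂ ^ n * s₁, ?_, ?_⟩
    · intro h
      rcases hP.mem_or_mem h with h' | h'
      · exact hs₂ (hP.mem_of_pow_mem n h')
      · exact hs₁ h'
    · apply hinj
      rw [map_pow, hy, hpow]
  obtain ⟨f, δ, hδ, hf⟩ := node_purity 𝔭₁ 𝔭₂ π hπ0 hπ hnode U (G * b) ε (n + 1) hm hε hcong
    hg₁ hg₂ hlocU
  refine ⟨algebraMap R K f / algebraMap R K b, δ, hδ, ?_⟩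
  have h3 : u * algebraMap R K b ^ (n + 1) = algebraMap R K δ * algebraMap R K f ^ (n + 1) := by
    rw [← hUK, hf, map_mul, map_pow]
  rw [div_pow, ← mul_div_assoc, ← h3, mul_div_assoc, div_self (pow_ne_zero _ hbK), mul_one]

/-- **Node purity** for `u ≡ 1` at both branches. -/
theorem node_purity_frac_one (𝔭₁ 𝔭₂ : Ideal R) [𝔭₁.IsPrime] [𝔭₂.IsPrime]
    [IsDiscreteValuationRing (R ⧸ 𝔭₁)] [IsDiscreteValuationRing (R ⧸ 𝔭₂)] (π : R) (hπ0 : π ≠ 0)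
    (hπ : Ideal.span {π} = 𝔭₁ ⊓ 𝔭₂) (hnode : 𝔭₁ = 𝔭₂ ∨ maximalIdeal R ≤ 𝔭₁ ⊔ 𝔭₂)
    (u : K) (m : ℕ) (hm : 0 < m)
    (h₁ : ∃ a b : R, b ∉ 𝔭₁ ∧ a - b ∈ 𝔭₁ ∧ u * algebraMap R K b = algebraMap R K a)
    (h₂ : ∃ a b : R, b ∉ 𝔭₂ ∧ a - b ∈ 𝔭₂ ∧ u * algebraMap R K b = algebraMap R K a)
    (hloc : ∀ P : Ideal R, P.IsPrime → π ∉ P → ∃ (z : K) (s₁ s₂ : R), s₁ ∉ P ∧ s₂ ∉ P ∧
      algebraMap R K s₁ * u = algebraMap R K s₂ * z ^ m) :
    ∃ (h : K) (δ : R), IsUnit δ ∧ u = algebraMap R K δ * h ^ m := by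
  have h𝔭₁ : (1 : R) ∉ 𝔭₁ := fun h =>
    (Ideal.IsPrime.ne_top inferInstance) ((Ideal.eq_top_iff_one _).2 h)
  have h𝔭₂ : (1 : R) ∉ 𝔭₂ := fun h =>
    (Ideal.IsPrime.ne_top inferInstance) ((Ideal.eq_top_iff_one _).2 h)
  refine node_purity_frac K 𝔭₁ 𝔭₂ π hπ0 hπ hnode u 1 1 m hm isUnit_one h𝔭₁ h𝔭₂ ?_ ?_ hloc
  · obtain ⟨a, b, h1, h2, h3⟩ := h₁
    exact ⟨a, b, h1, by simpa using h2, h3⟩
  · obtain ⟨a, b, h1, h2, h3⟩ := h₂
    exact ⟨a, b, h1, by simpa using h2, h3⟩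

end Fermat.Agent.A2.H672
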